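import Mathlib
import Fermat.Agent.S55.Bridge.H959.Restrict
import Fermat.Agent.S56.H186.TameVal
import Fermat.Agent.S56.Defs

/-!
# S56 / REC-Q, leaf NONDEG (helper776), part 1: inertia at `q` moves the `N`-th roots of `q`

`A` a valuation subring of `ℚ̄` over the prime `q`, `π ∈ ℚ̄` with `π ^ N = q`, `N ≥ 2`.

* `exists_sub_mem_nonunits_of_sum` (Eisenstein): an element `∑_{i<N} a_i π^i` (`a_i ∈ ℚ`) of `A`
  is congruent to `a_0` modulo the maximal ideal (the residue field of `ℚ(π)` at `q` is `𝔽_q`);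
* `exists_mem_inertia_apply_ne` : there is `τ` in the inertia group `I_A` with `τ π ≠ π`
  (`ℚ(π)/ℚ` is ramified at `q`).

The proof uses the relative forms of transitivity and of the surjectivity
`D → Aut(residue field)` for the closed subgroup `Gal(ℚ̄/ℚ(π))`
(`S55/Bridge/H959/Restrict.lean`).
-/

set_option autoImplicit false
set_option linter.style.haveILetI false

open Polynomial
open scoped Pointwise

namespace Fermat.Agent.S56.H776

open Fermat.Agent.S56

section Val

variable (A : ValuationSubring Qb) {q N : ℕ} {π : Qb}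

theorem val_q_ne_zero (hqp : q.Prime) : A.valuation (q : Qb) ≠ 0 :=
  (Valuation.ne_zero_iff _).mpr (Nat.cast_ne_zero.mpr hqp.ne_zero)

theorem val_q_zpow_inj (hqp : q.Prime) (hA : A.LiesOverPrime q) {m n : ℤ}
    (h : A.valuation (q : Qb) ^ m = A.valuation (q : Qb) ^ n) : m = n := by
  have h1 : A.valuation (q : Qb) < 1 := A.mem_nonunits_iff.mp hA
  exact zpow_right_injective₀ (zero_lt_iff.mpr (val_q_ne_zero A hqp)) h1.ne h

/-- The `N`-th power of the valuation of a term `a π^i`. -/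
theorem val_term_pow (hqp : q.Prime) (hA : A.LiesOverPrime q) (hπ : π ^ N = (q : Qb))
    {a : ℚ} (ha : a ≠ 0) (i : ℕ) :
    ∃ m : ℤ, A.valuation (algebraMap ℚ Qb a * π ^ i) ^ N =
      A.valuation (q : Qb) ^ ((N : ℤ) * m + i) := by
  obtain ⟨m, hm⟩ := Fermat.Agent.S56.H186.exists_valuation_rat_eq_zpow A hA hqp ha
  refine ⟨m, ?_⟩
  have h0 := val_q_ne_zero A hqp
  have h1 : A.valuation π ^ N = A.valuation (q : Qb) := by rw [← map_pow, hπ]
  rw [map_mul, map_pow, mul_pow, hm, ← pow_mul, mul_comm i N, pow_mul, h1, zpow_add₀ h0,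
    zpow_mul, zpow_natCast, zpow_natCast]
  congr 1
  rw [← zpow_natCast (A.valuation (q : Qb) ^ m) N, ← zpow_mul,
    ← zpow_natCast (A.valuation (q : Qb)) N, ← zpow_mul, mul_comm]

/-- Distinct terms have distinct valuations. -/
theorem val_term_ne (hqp : q.Prime) (hA : A.LiesOverPrime q) (hπ : π ^ N = (q : Qb))
    {a b : ℚ} (ha : a ≠ 0) (hb : b ≠ 0) {i j : ℕ} (hi : i < N) (hj : j < N) (hij : i ≠ j) :
    A.valuation (algebraMap ℚ Qb a * π ^ i) ≠ A.valuation (algebraMap ℚ Qb b * π ^ j) := by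
  intro h
  obtain ⟨m, hm⟩ := val_term_pow A hqp hA hπ ha i
  obtain ⟨n, hn⟩ := val_term_pow A hqp hA hπ hb j
  rw [h, hn] at hm
  have h2 := val_q_zpow_inj A hqp hA hm
  have h3 : ((N : ℤ) * n + j) % N = ((N : ℤ) * m + i) % N := by rw [h2]
  rw [Int.mul_add_emod_self_left, Int.mul_add_emod_self_left] at h3
  have hi' : ((i : ℤ)) % N = i := Int.emod_eq_of_lt (by positivity) (by exact_mod_cast hi)
  have hj' : ((j : ℤ)) % N = j := Int.emod_eq_of_lt (by positivity) (by exact_mod_cast hj)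
  rw [hi', hj'] at h3
  exact hij (by exact_mod_cast h3.symm)

/-- A term `a π^i` with `0 < i < N` is not a unit. -/
theorem val_term_ne_one (hqp : q.Prime) (hA : A.LiesOverPrime q) (hπ : π ^ N = (q : Qb))
    {a : ℚ} (ha : a ≠ 0) {i : ℕ} (hi0 : 0 < i) (hi : i < N) :
    A.valuation (algebraMap ℚ Qb a * π ^ i) ≠ 1 := by
  intro h
  obtain ⟨m, hm⟩ := val_term_pow A hqp hA hπ ha i
  rw [h, one_pow] at hm
  have h2 : ((N : ℤ) * m + i) = 0 := by
    apply val_q_zpow_inj A hqp hA
    rw [← hm, zpow_zero]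
  have h3 : ((N : ℤ) * m + i) % N = 0 % N := by rw [h2]
  rw [Int.mul_add_emod_self_left, Int.zero_emod,
    Int.emod_eq_of_lt (by positivity) (by exact_mod_cast hi)] at h3
  have : i = 0 := by exact_mod_cast h3
  omega

/-- **Eisenstein.**  If `∑_{i<N} a_i π^i ∈ A` then all terms lie in `A`, and the terms with
`i > 0` lie in the maximal ideal. -/
theorem val_term_le_one (hqp : q.Prime) (hA : A.LiesOverPrime q) (hπ : π ^ N = (q : Qb))
    (a : ℕ → ℚ) (hb : (∑ i ∈ Finset.range N, algebraMap ℚ Qb (a i) * π ^ i) ∈ A) :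
    ∀ i ∈ Finset.range N, A.valuation (algebraMap ℚ Qb (a i) * π ^ i) ≤ 1 := by
  classical
  by_contra hcon
  push Not at hcon
  obtain ⟨i₀, hi₀, hi₀v⟩ := hcon
  obtain ⟨j, hj, hmax⟩ := Finset.exists_max_image (Finset.range N)
    (fun i => A.valuation (algebraMap ℚ Qb (a i) * π ^ i)) ⟨i₀, hi₀⟩
  have hjv : 1 < A.valuation (algebraMap ℚ Qb (a j) * π ^ j) := lt_of_lt_of_le hi₀v (hmax i₀ hi₀)
  have haj : a j ≠ 0 := by
    intro h0
    rw [h0, map_zero, zero_mul, map_zero] at hjv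
    exact absurd hjv (by simp)
  have hlt : ∀ i ∈ Finset.range N \ {j},
      A.valuation (algebraMap ℚ Qb (a i) * π ^ i) < A.valuation (algebraMap ℚ Qb (a j) * π ^ j) := by
    intro i hi
    rw [Finset.mem_sdiff, Finset.mem_singleton] at hi
    rcases eq_or_ne (a i) 0 with h0 | h0
    · rw [h0, map_zero, zero_mul, map_zero]
      exact lt_trans zero_lt_one hjv
    · exact lt_of_le_of_ne (hmax i hi.1)
        (val_term_ne A hqp hA hπ h0 haj (Finset.mem_range.mp hi.1) (Finset.mem_range.mp hj) hi.2)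
  have hsum := Valuation.map_sum_eq_of_lt A.valuation hj hlt
  have hb' : A.valuation (∑ i ∈ Finset.range N, algebraMap ℚ Qb (a i) * π ^ i) ≤ 1 :=
    (A.valuation_le_one_iff _).mpr hb
  rw [hsum] at hb'
  exact absurd hjv (not_lt.mpr hb')

theorem sub_mem_nonunits_of_sum (hqp : q.Prime) (hA : A.LiesOverPrime q)
    (hπ : π ^ N = (q : Qb)) (a : ℕ → ℚ)
    (hb : (∑ i ∈ Finset.range N, algebraMap ℚ Qb (a i) * π ^ i) ∈ A) :
    (∑ i ∈ Finset.range N, algebraMap ℚ Qb (a i) * π ^ i) - algebraMap ℚ Qb (a 0)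
      ∈ A.nonunits := by
  have hle := val_term_le_one A hqp hA hπ a hb
  rcases Nat.eq_zero_or_pos N with hN0 | hNpos
  · subst hN0
    exfalso
    rw [pow_zero] at hπ
    have h1 : A.valuation (q : Qb) < 1 := A.mem_nonunits_iff.mp hA
    rw [← hπ, map_one] at h1
    exact lt_irrefl _ h1
  obtain ⟨M, rfl⟩ : ∃ M, N = M + 1 := ⟨N - 1, by omega⟩
  rw [Finset.sum_range_succ', pow_zero, mul_one, add_sub_cancel_right, A.mem_nonunits_iff]
  apply Valuation.map_sum_lt _ one_ne_zero
  intro i hi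
  have hi' : i + 1 < M + 1 := by
    have := Finset.mem_range.mp hi
    omega
  have h1 := hle (i + 1) (Finset.mem_range.mpr hi')
  rcases eq_or_ne (a (i + 1)) 0 with h0 | h0
  · rw [h0, map_zero, zero_mul, map_zero]
    exact zero_lt_one
  · exact lt_of_le_of_ne h1 (val_term_ne_one A hqp hA hπ h0 (Nat.succ_pos i) hi')

end Val

section Adjoin

variable {N q : ℕ} {π : Qb}

/-- Elements of `ℚ(π)` are polynomials of degree `< N` in `π`. -/
theorem exists_sum_of_mem_adjoin (hN : 0 < N) (hπ : π ^ N = (q : Qb)) {b : Qb}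
    (hb : b ∈ IntermediateField.adjoin ℚ {π}) :
    ∃ a : ℕ → ℚ, b = ∑ i ∈ Finset.range N, algebraMap ℚ Qb (a i) * π ^ i := by
  have hmonic : (X ^ N - C (q : ℚ) : ℚ[X]).Monic := monic_X_pow_sub_C _ hN.ne'
  have hroot : aeval π (X ^ N - C (q : ℚ) : ℚ[X]) = 0 := by
    simp [hπ]
  have hint : IsIntegral ℚ π := ⟨_, hmonic, hroot⟩
  have hb' : b ∈ (IntermediateField.adjoin ℚ {π}).toSubalgebra := hb
  rw [IntermediateField.adjoin_simple_toSubalgebra_of_isAlgebraic hint.isAlgebraic,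
    Algebra.adjoin_singleton_eq_range_aeval] at hb'
  obtain ⟨f, rfl⟩ := hb'
  refine ⟨fun i => (f %ₘ (X ^ N - C (q : ℚ))).coeff i, ?_⟩
  have h1 : aeval π (f %ₘ (X ^ N - C (q : ℚ))) = aeval π f :=
    aeval_modByMonic_eq_self_of_root hroot
  have hdeg : (f %ₘ (X ^ N - C (q : ℚ))).natDegree < N := by
    have := natDegree_modByMonic_lt f hmonic (by
      intro h1
      have := congrArg natDegree h1
      rw [natDegree_X_pow_sub_C, natDegree_one] at this
      omega)
    rwa [natDegree_X_pow_sub_C] at this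
  show aeval π f = _
  rw [← h1, aeval_eq_sum_range' hdeg]
  apply Finset.sum_congr rfl
  intro i _
  rw [Algebra.smul_def]

end Adjoin

section Galois

open Fermat.Agent.S54 Fermat.Agent.S55.Bridge Fermat.Agent.S55.Bridge.H959

attribute [local instance] isAlgebraic_Qbar isGalois_Qbar

variable {A : ValuationSubring Qb} {q N : ℕ} {π : Qb}

theorem nonunits_sub_mem {A : ValuationSubring Qb} {x y : Qb} (hx : x ∈ A.nonunits)
    (hy : y ∈ A.nonunits) : x - y ∈ A.nonunits := by
  rw [A.mem_nonunits_iff] at hx hy ⊢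
  exact lt_of_le_of_lt (Valuation.map_sub _ _ _) (max_lt hx hy)

theorem nonunits_add_mem {A : ValuationSubring Qb} {x y : Qb} (hx : x ∈ A.nonunits)
    (hy : y ∈ A.nonunits) : x + y ∈ A.nonunits := by
  rw [A.mem_nonunits_iff] at hx hy ⊢
  exact lt_of_le_of_lt (Valuation.map_add _ _ _) (max_lt hx hy)

/-- `π` is not rational. -/
theorem exists_apply_ne (hqp : q.Prime) (hA : A.LiesOverPrime q) (hN : 2 ≤ N)
    (hπ : π ^ N = (q : Qb)) : ∃ s : GQ, s π ≠ π := by
  by_contra hcon
  push Not at hcon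
  have hbot : π ∈ (⊥ : IntermediateField ℚ Qb) := mem_of_fixed ⊥ π (fun h _ => hcon h)
  rw [IntermediateField.mem_bot] at hbot
  obtain ⟨r, hr⟩ := hbot
  have hπ0 : π ≠ 0 := by
    intro h0
    rw [h0, zero_pow (by omega)] at hπ
    exact hqp.ne_zero (Nat.cast_eq_zero.mp hπ.symm)
  have hr0 : r ≠ 0 := by
    rintro rfl
    rw [map_zero] at hr
    exact hπ0 hr.symm
  obtain ⟨m, hm⟩ := Fermat.Agent.S56.H186.exists_valuation_rat_eq_zpow A hA hqp hr0
  rw [hr] at hm
  have h1 : A.valuation π ^ N = A.valuation (q : Qb) := by rw [← map_pow, hπ]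
  rw [hm, ← zpow_natCast, ← zpow_mul] at h1
  have h2 : m * (N : ℤ) = 1 := by
    apply val_q_zpow_inj A hqp hA
    rw [h1, zpow_one]
  have h3 : (N : ℤ) ∣ 1 := ⟨m, by rw [← h2, mul_comm]⟩
  have h4 : (N : ℤ) ≤ 1 := Int.le_of_dvd one_pos h3
  omega

/-- An algebraic integer fixed by `Gal(ℚ̄/ℚ(π))` is congruent to a rational number modulo
the maximal ideal of every valuation subring over `q`. -/
theorem exists_rat_sub_mem_nonunits (hqp : q.Prime) (hN : 0 < N) (hπ : π ^ N = (q : Qb))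
    {b : Qb} (hb : IsIntegral ℤ b)
    (hfix : ∀ h ∈ (IntermediateField.adjoin ℚ {π}).fixingSubgroup, h b = b) :
    ∃ a₀ : ℚ, ∀ A' : ValuationSubring Qb, A'.LiesOverPrime q →
      b - algebraMap ℚ Qb a₀ ∈ A'.nonunits := by
  have hbF : b ∈ IntermediateField.adjoin ℚ {π} := mem_of_fixed _ b hfix
  obtain ⟨a, ha⟩ := exists_sum_of_mem_adjoin hN hπ hbF
  refine ⟨a 0, fun A' hA' => ?_⟩
  have hbA' : b ∈ A' := isIntegral_mem_valuationSubring A' hb
  rw [ha] at hbA' ⊢
  exact sub_mem_nonunits_of_sum A' hqp hA' hπ a hbA'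

/-- **The extension `ℚ(π)/ℚ`, `π ^ N = q`, is ramified at `q`**: some element of the inertia
group moves `π`. -/
theorem exists_mem_inertia_apply_ne (hqp : q.Prime) (hA : A.LiesOverPrime q) (hN : 2 ≤ N)
    (hπ : π ^ N = (q : Qb)) : ∃ τ ∈ A.inertiaSubgroupIn ℚ, τ π ≠ π := by
  have hN0 : 0 < N := by omega
  set F : IntermediateField ℚ Qb := IntermediateField.adjoin ℚ {π} with hF
  have hH : IsClosed ((F.fixingSubgroup : Subgroup GQ) : Set GQ) :=
    InfiniteGalois.fixingSubgroup_isClosed F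
  have hπF : π ∈ F := IntermediateField.mem_adjoin_simple_self ℚ π
  have hfixπ : ∀ h ∈ F.fixingSubgroup, h π = π := fun h hh =>
    (IntermediateField.mem_fixingSubgroup_iff F h).mp hh π hπF
  obtain ⟨s, hs⟩ := exists_apply_ne hqp hA hN hπ
  -- an element of the decomposition group moving `π`
  obtain ⟨σ, hσD, hσπ⟩ : ∃ σ ∈ A.decompositionSubgroup ℚ, σ π ≠ π := by
    have hA' : (s • A).LiesOverPrime q := liesOverPrime_smul A s q hA
    obtain ⟨h, hh, hhA⟩ := exists_smul_valuationSubring_eq F.fixingSubgroup hH A (s • A) q hqp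
      hA hA' (by
        intro b hb hfix
        obtain ⟨a₀, ha₀⟩ := exists_rat_sub_mem_nonunits hqp hN0 hπ hb hfix
        have h1 := ha₀ A hA
        have h2 := ha₀ (s • A) hA'
        have h3 : algebraMap ℚ Qb a₀ ∈ (s • A).nonunits ↔ algebraMap ℚ Qb a₀ ∈ A.nonunits := by
          rw [mem_nonunits_smul_iff, AlgEquiv.commutes]
        constructor
        · intro hbA
          have h4 : algebraMap ℚ Qb a₀ ∈ A.nonunits := by
            have := nonunits_sub_mem hbA h1
            rwa [sub_sub_cancel] at this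
          have h5 := nonunits_add_mem h2 (h3.mpr h4)
          rwa [sub_add_cancel] at h5
        · intro hbA
          have h4 : algebraMap ℚ Qb a₀ ∈ (s • A).nonunits := by
            have := nonunits_sub_mem hbA h2
            rwa [sub_sub_cancel] at this
          have h5 := nonunits_add_mem h1 (h3.mp h4)
          rwa [sub_add_cancel] at h5)
    refine ⟨h⁻¹ * s, ?_, ?_⟩
    · rw [MulAction.mem_stabilizer_iff, mul_smul, hhA, inv_smul_smul]
    · intro hcon
      apply hs
      have h1 : (h⁻¹ * s) π = h⁻¹ (s π) := rfl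
      rw [h1] at hcon
      have h2 : h (h⁻¹ (s π)) = s π := by
        show (h * h⁻¹) (s π) = s π
        rw [mul_inv_cancel]
        rfl
      rw [← h2, hcon, hfixπ h hh]
  -- correct `σ` by an element of `Gal(ℚ̄/ℚ(π))` with the same action on the residue field
  haveI := primeBelow_isPrime A
  have hσQ : σ • primeBelow A = primeBelow A := by
    rw [← primeBelow_smul]
    congr 1
  obtain ⟨h, hh, hhQ, hcong⟩ := exists_mem_stabilizer_of_fixes F.fixingSubgroup hH
    (primeBelow A) σ hσQ (by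
      intro a ha
      obtain ⟨a₀, ha₀⟩ := exists_rat_sub_mem_nonunits hqp hN0 hπ a.2
        (fun h hh => congrArg Subtype.val (ha h hh))
      have h1 := ha₀ A hA
      rw [mem_primeBelow]
      have h2 : σ ((a : Qb) - algebraMap ℚ Qb a₀) ∈ A.nonunits :=
        (apply_mem_nonunits_iff A σ hσD _).mpr h1
      have h3 : ((σ • a - a : Zb) : Qb) =
          σ ((a : Qb) - algebraMap ℚ Qb a₀) - ((a : Qb) - algebraMap ℚ Qb a₀) := by
        rw [map_sub, AlgEquiv.commutes]
        have : ((σ • a - a : Zb) : Qb) = σ (a : Qb) - (a : Qb) := rfl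
        rw [this]
        ring
      rw [h3]
      exact nonunits_sub_mem h2 h1)
  have hhD : h ∈ A.decompositionSubgroup ℚ :=
    mem_decomposition_of_smul_primeBelow A q hqp hA h hhQ
  have hhinvD : h⁻¹ ∈ A.decompositionSubgroup ℚ := Subgroup.inv_mem _ hhD
  refine ⟨h⁻¹ * σ, ?_, ?_⟩
  · apply mem_inertia_of_integral A q hqp hA (h⁻¹ * σ) (Subgroup.mul_mem _ hhinvD hσD)
    intro b hb
    have h1 := hcong ⟨b, hb⟩
    rw [mem_primeBelow] at h1
    have h2 : (((h • (⟨b, hb⟩ : Zb)) - σ • (⟨b, hb⟩ : Zb) : Zb) : Qb) = h b - σ b := rfl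
    rw [h2] at h1
    have h3 : h⁻¹ (h b - σ b) ∈ A.nonunits := (apply_mem_nonunits_iff A h⁻¹ hhinvD _).mpr h1
    have h4 : (h⁻¹ * σ) b - b = -(h⁻¹ (h b - σ b)) := by
      have h5 : (h⁻¹ * σ) b = h⁻¹ (σ b) := rfl
      have h6 : h⁻¹ (h b) = b := by
        show (h⁻¹ * h) b = b
        rw [inv_mul_cancel]
        rfl
      rw [h5, map_sub, h6]
      ring
    rw [h4, A.mem_nonunits_iff, Valuation.map_neg, ← A.mem_nonunits_iff]
    exact h3
  · intro hcon
    apply hσπ
    have h1 : (h⁻¹ * σ) π = h⁻¹ (σ π) := rfl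
    rw [h1] at hcon
    have h2 : h (h⁻¹ (σ π)) = σ π := by
      show (h * h⁻¹) (σ π) = σ π
      rw [mul_inv_cancel]
      rfl
    rw [← h2, hcon, hfixπ h hh]

end Galois

end Fermat.Agent.S56.H776
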