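import Mathlib
import Fermat.Agent.S56.GW.RQSpec
import Fermat.Agent.S56.H776.Kummer
import Fermat.Agent.S56.H554.LocTWCup
import Fermat.Agent.S56.H606.Gen
import Fermat.Agent.S56.H536.CycExp
import Fermat.Agent.Lib.Cheb.H476.FrobAt

/-!
# S56 / REC-Q, leaf NONDEG (helper776), part 2: local engine at a Taylor–Wiles prime

`q ≡ 1 mod p` a prime, `P | q`, `D = D_P`, `I = I_P`, `ρ̄` unramified at `P`.

* `isCycExp_one_of_mem_decomposition` : `D_P` fixes `μ_p`;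
* `rho_eq_pow_of_mem_decomposition` : `ρ̄ σ = ρ̄ (φ ^ n)` for `σ ∈ D_P`;
* `exists_kummer_char` : the Kummer character `χ_q : G_ℚ → k` of `q^{1/p}`: additive on `D_P`, of
  finite level, NOT trivial on `I_P`;
* `trace_mul_eq_zero_local` : the Heisenberg argument of helper554
  (`H554.trace_mul_eq_zero_of_cup_coboundary`) for LOCAL cocycles on `D_P`;
* `locTriv_local` : an unramified local twisted cocycle with `y φ = φ m φ⁻¹ − m` is the
  coboundary of `m` on `D_P`.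
-/

set_option autoImplicit false
set_option linter.style.haveILetI false

open scoped Pointwise

namespace Fermat.Agent.S56.H776

open Fermat.Agent.A2.H708 Fermat.Agent.S56 Fermat.Agent.S56.H716 Fermat.Agent.S56.GW
open Fermat.Agent.S56.H554

attribute [local instance] Fermat.Agent.S56.H554.isAlgebraic_Qb

variable {P : ValuationSubring Qb} {q p : ℕ}

theorem ne_of_dvd_sub_one (hq : q.Prime) (hp : p.Prime) (hq1 : p ∣ q - 1) : p ≠ q := by
  rintro rfl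
  have h1 : p - 1 < p := Nat.sub_lt hp.pos one_pos
  have h2 : 0 < p - 1 := by have := hp.two_le; omega
  exact absurd (Nat.le_of_dvd h2 hq1) (not_le.mpr h1)

theorem mem_decomposition_of_isFrobeniusAt {φ : GQ} (hφ : P.IsFrobeniusAt φ q) :
    φ ∈ P.decompositionSubgroup ℚ :=
  ((Fermat.Agent.Lib.Cheb.H476.isFrobeniusAt_iff P φ q).mp hφ).1

/-- The decomposition group at `q ≡ 1 mod p` fixes `μ_p`. -/
theorem isCycExp_one_of_mem_decomposition (hq : q.Prime) (hP : P.LiesOverPrime q)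
    (hp : p.Prime) (hq1 : p ∣ q - 1) {σ : GQ} (hσ : σ ∈ P.decompositionSubgroup ℚ) :
    IsCycExp p σ 1 := by
  haveI : NeZero p := ⟨hp.ne_zero⟩
  have hpq := ne_of_dvd_sub_one hq hp hq1
  obtain ⟨φ, hφ, -⟩ := Fermat.Agent.Lib.Cheb.H476.exists_frobenius_at q hq P hP
  obtain ⟨n, ι, hι, h⟩ := Fermat.Agent.S56.H606.exists_frobenius_pow_mul_inertia hq hP
    (Fermat.Agent.S55.H414.cycloLevel p) hφ hσ
  intro μ hμ
  rw [pow_one, h μ (Fermat.Agent.S56.H536.mem_cycloLevel_of_pow_eq_one p hμ)]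
  show (φ ^ n) (ι μ) = μ
  have h1 := fixes_mu_of_mem_inertia hq hP hp hpq hι μ hμ
  rw [pow_one] at h1
  rw [h1]
  have h2 := fixes_mu_of_isFrobeniusAt hq hP hp hpq hq1 hφ μ hμ
  rw [pow_one] at h2
  exact Fermat.Agent.S56.H536.pow_apply_eq_of_apply_eq φ h2 n

section Rho

variable {k : Type} [Field k] {ρbar : ResidualGaloisRep k}

theorem rho_inv_eq_of_eq {σ σ' : GQ} (h : ρbar.ρ σ = ρbar.ρ σ') :
    ρbar.ρ σ⁻¹ = ρbar.ρ σ'⁻¹ := by
  calc ρbar.ρ σ⁻¹ = ρbar.ρ σ⁻¹ * (ρbar.ρ σ' * ρbar.ρ σ'⁻¹) := by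
        rw [rho_mul_inv, mul_one]
    _ = ρbar.ρ σ⁻¹ * ρbar.ρ σ * ρbar.ρ σ'⁻¹ := by rw [← h, mul_assoc]
    _ = ρbar.ρ σ'⁻¹ := by rw [rho_inv_mul, one_mul]

/-- Modulo a finite level `L`, every `σ ∈ D_P` is `φ ^ n * ι * g` with `ι ∈ I_P` and `g ∈ D_P`
fixing `L`. -/
theorem exists_decomp (hq : q.Prime) (hP : P.LiesOverPrime q)
    (L : IntermediateField ℚ Qb) [FiniteDimensional ℚ L] {φ : GQ} (hφ : P.IsFrobeniusAt φ q)
    {σ : GQ} (hσ : σ ∈ P.decompositionSubgroup ℚ) :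
    ∃ (n : ℕ) (ι g : GQ), ι ∈ P.inertiaSubgroupIn ℚ ∧ g ∈ P.decompositionSubgroup ℚ ∧
      (∀ x ∈ L, g x = x) ∧ σ = φ ^ n * ι * g := by
  obtain ⟨n, ι, hι, h⟩ := Fermat.Agent.S56.H606.exists_frobenius_pow_mul_inertia hq hP L hφ hσ
  have hφD := mem_decomposition_of_isFrobeniusAt hφ
  have hιD : ι ∈ P.decompositionSubgroup ℚ := mem_decomposition_of_mem_inertiaIn P hι
  have hD : φ ^ n * ι ∈ P.decompositionSubgroup ℚ := mul_mem (pow_mem hφD n) hιD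
  refine ⟨n, ι, (φ ^ n * ι)⁻¹ * σ, hι, mul_mem (inv_mem hD) hσ, ?_, ?_⟩
  · intro x hx
    rw [AlgEquiv.mul_apply, h x hx]
    exact (φ ^ n * ι).symm_apply_apply x
  · rw [mul_inv_cancel_left]

/-- `ρ̄ σ = ρ̄ (φ ^ n)` for `σ ∈ D_P`. -/
theorem rho_eq_pow_of_mem_decomposition (hq : q.Prime) (hP : P.LiesOverPrime q)
    (hur : ∀ σ ∈ P.inertiaSubgroupIn ℚ, ρbar.ρ σ = 1) {φ : GQ} (hφ : P.IsFrobeniusAt φ q)
    {σ : GQ} (hσ : σ ∈ P.decompositionSubgroup ℚ) : ∃ n : ℕ, ρbar.ρ σ = ρbar.ρ φ ^ n := by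
  obtain ⟨Lρ, hLρ, hρL⟩ := ρbar.factorsThroughFiniteLevel
  haveI := hLρ
  obtain ⟨n, ι, g, hι, -, hg, rfl⟩ := exists_decomp hq hP Lρ hφ hσ
  refine ⟨n, ?_⟩
  rw [map_mul, map_mul, hur ι hι, hρL g hg, mul_one, mul_one, map_pow]

/-- Anything commuting with `ρ̄ φ` commutes with `ρ̄ (D_P)`. -/
theorem conj_eq_of_commute (hq : q.Prime) (hP : P.LiesOverPrime q)
    (hur : ∀ σ ∈ P.inertiaSubgroupIn ℚ, ρbar.ρ σ = 1) {φ : GQ} (hφ : P.IsFrobeniusAt φ q)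
    {h : Module.End k ρbar.V} (hh : ρbar.ρ φ * h = h * ρbar.ρ φ)
    {σ : GQ} (hσ : σ ∈ P.decompositionSubgroup ℚ) : ρbar.ρ σ * h * ρbar.ρ σ⁻¹ = h := by
  obtain ⟨n, hn⟩ := rho_eq_pow_of_mem_decomposition hq hP hur hφ hσ
  have hc : Commute (ρbar.ρ φ) h := hh
  have h1 : ρbar.ρ σ * h = h * ρbar.ρ σ := by
    rw [hn]
    exact (hc.pow_left n).eq
  rw [h1, mul_assoc, rho_mul_inv, mul_one]

end Rho

section Kummer

variable {k : Type} [Field k]

theorem natCast_eq_of_pow_eq [CharP k p] (hp : p.Prime) {ζ : Qb} (hζ : IsPrimitiveRoot ζ p)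
    {a b : ℕ} (h : ζ ^ a = ζ ^ b) : ((a : ℕ) : k) = ((b : ℕ) : k) := by
  wlog hab : a ≤ b generalizing a b
  · exact (this h.symm (le_of_not_ge hab)).symm
  obtain ⟨c, rfl⟩ := Nat.exists_eq_add_of_le hab
  rw [pow_add] at h
  have h0 : ζ ^ a ≠ 0 := pow_ne_zero _ (hζ.ne_zero hp.ne_zero)
  have h1 : ζ ^ c = 1 := mul_left_cancel₀ h0 (by rw [← h, mul_one])
  have h2 : p ∣ c := (hζ.pow_eq_one_iff_dvd c).mp h1
  rw [Nat.cast_add, (CharP.cast_eq_zero_iff k p c).mpr h2, add_zero]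

/-- **The Kummer character of `q^{1/p}`**: a function `χ : G_ℚ → k` which is additive on `D_P`,
of finite level, and NOT trivial on the inertia group `I_P`. -/
theorem exists_kummer_char [CharP k p] (hq : q.Prime) (hP : P.LiesOverPrime q)
    (hp : p.Prime) (hq1 : p ∣ q - 1) :
    ∃ (χ : GQ → k) (L : IntermediateField ℚ Qb), FiniteDimensional ℚ L ∧
      (∀ σ ∈ P.decompositionSubgroup ℚ, ∀ τ : GQ, χ (σ * τ) = χ σ + χ τ) ∧
      (∀ σ τ : GQ, (∀ x ∈ L, τ x = x) → χ (σ * τ) = χ σ) ∧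
      ∃ τ ∈ P.inertiaSubgroupIn ℚ, χ τ ≠ 0 := by
  haveI : NeZero p := ⟨hp.ne_zero⟩
  obtain ⟨π, hπ⟩ := IsAlgClosed.exists_pow_nat_eq ((q : ℕ) : Qb) hp.pos
  have hζ := Fermat.Agent.S55.H414.zetaBar_spec p
  set ζ := Fermat.Agent.S55.H414.zetaBar p with hζdef
  have hπ0 : π ≠ 0 := by
    intro h0
    rw [h0, zero_pow hp.ne_zero] at hπ
    exact hq.ne_zero (Nat.cast_eq_zero.mp hπ.symm)
  have hex : ∀ σ : GQ, ∃ i : ℕ, ζ ^ i * π = σ π := by
    intro σ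
    have h1 : (σ π / π) ^ p = 1 := by
      rw [div_pow, ← map_pow, hπ, map_natCast, div_self]
      exact Nat.cast_ne_zero.mpr hq.ne_zero
    obtain ⟨i, -, hi⟩ := hζ.eq_pow_of_pow_eq_one h1
    exact ⟨i, by rw [hi, div_mul_cancel₀ _ hπ0]⟩
  choose n hn using hex
  have hcast : ∀ a b : ℕ, ζ ^ a = ζ ^ b → ((a : ℕ) : k) = ((b : ℕ) : k) :=
    fun a b hab => natCast_eq_of_pow_eq hp hζ hab
  have hcancel : ∀ a b : ℕ, ζ ^ a * π = ζ ^ b * π → ((a : ℕ) : k) = ((b : ℕ) : k) :=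
    fun a b hab => hcast a b (mul_right_cancel₀ hπ0 hab)
  have hint : IsIntegral ℚ π := by
    refine ⟨Polynomial.X ^ p - Polynomial.C (q : ℚ), Polynomial.monic_X_pow_sub_C _ hp.ne_zero, ?_⟩
    simp [hπ]
  have hfd : FiniteDimensional ℚ (IntermediateField.adjoin ℚ {π}) :=
    IntermediateField.adjoin.finiteDimensional hint
  refine ⟨fun σ => ((n σ : ℕ) : k), IntermediateField.adjoin ℚ {π}, hfd, ?_, ?_, ?_⟩
  · intro σ hσ τ
    show ((n (σ * τ) : ℕ) : k) = ((n σ : ℕ) : k) + ((n τ : ℕ) : k)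
    rw [← Nat.cast_add]
    apply hcancel
    have hσζ : σ ζ = ζ := by
      have := isCycExp_one_of_mem_decomposition hq hP hp hq1 hσ ζ hζ.pow_eq_one
      rwa [pow_one] at this
    rw [hn (σ * τ)]
    show σ (τ π) = _
    rw [← hn τ, map_mul, map_pow, hσζ, ← hn σ, pow_add]
    ring
  · intro σ τ hτ
    show ((n (σ * τ) : ℕ) : k) = ((n σ : ℕ) : k)
    apply hcancel
    rw [hn (σ * τ), hn σ]
    show σ (τ π) = σ π
    rw [hτ π (IntermediateField.mem_adjoin_simple_self ℚ π)]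
  · obtain ⟨τ, hτ, hτπ⟩ := exists_mem_inertia_apply_ne hq hP hp.two_le hπ
    refine ⟨τ, hτ, ?_⟩
    show ((n τ : ℕ) : k) ≠ 0
    intro h0
    apply hτπ
    have h1 : p ∣ n τ := (CharP.cast_eq_zero_iff k p (n τ)).mp h0
    obtain ⟨c, hc⟩ := h1
    rw [← hn τ, hc, pow_mul, hζ.pow_eq_one, one_pow, one_mul]

end Kummer

section Heisenberg

variable {k : Type} [Field k] {ρbar : ResidualGaloisRep k}

/-- a finite Galois-stable level containing a given finite level -/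
theorem exists_stable_level_h776 (L : IntermediateField ℚ Qb) [FiniteDimensional ℚ L] :
    ∃ M : IntermediateField ℚ Qb, FiniteDimensional ℚ M ∧ L ≤ M ∧
      ∀ σ : GQ, ∀ x ∈ M, σ x ∈ M := by
  haveI : IsAlgClosure ℚ Qb := ⟨inferInstance, inferInstance⟩
  haveI : Normal ℚ Qb := IsAlgClosure.normal ℚ Qb
  haveI : Normal ℚ (IntermediateField.normalClosure ℚ L Qb) := normalClosure.normal ℚ L Qb
  refine ⟨IntermediateField.normalClosure ℚ L Qb, normalClosure.is_finiteDimensional ℚ L Qb,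
    IntermediateField.le_normalClosure L, fun σ x hx => ?_⟩
  have h := IntermediateField.normal_iff_forall_map_le'.mp
    (inferInstance : Normal ℚ (IntermediateField.normalClosure ℚ L Qb)) σ
  exact h ⟨x, hx, rfl⟩

/-- **Heisenberg argument for LOCAL cocycles** (after helper554).  `x` an untwisted cocycle on
`D_P`, `y` an (untwisted on `D_P`) cocycle on `D_P` vanishing on `I_P`; if the cup product is the
coboundary of `lam` (of finite level on `D_P`) on `D_P`, then `tr (x τ · y φ) = 0` for every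
`τ ∈ I_P` such that `x τ` commutes with `ρ̄ φ`. -/
theorem trace_mul_eq_zero_local [CharP k p] (hq : q.Prime) (hP : P.LiesOverPrime q)
    (hp : p.Prime) (hq1 : p ∣ q - 1)
    (hur : ∀ σ ∈ P.inertiaSubgroupIn ℚ, ρbar.ρ σ = 1)
    {x y : GQ → Module.End k ρbar.V}
    (hx : ∀ σ ∈ P.decompositionSubgroup ℚ, ∀ τ ∈ P.decompositionSubgroup ℚ,
      x (σ * τ) = x σ + ρbar.ρ σ * x τ * ρbar.ρ σ⁻¹)
    (hy : ∀ σ ∈ P.decompositionSubgroup ℚ, ∀ τ ∈ P.decompositionSubgroup ℚ,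
      y (σ * τ) = y σ + ρbar.ρ σ * y τ * ρbar.ρ σ⁻¹)
    (hyI : ∀ τ ∈ P.inertiaSubgroupIn ℚ, y τ = 0)
    {lam : GQ → k} (hlamL : HasLevelOn (P.decompositionSubgroup ℚ) lam)
    (hcob : ∀ σ ∈ P.decompositionSubgroup ℚ, ∀ σ' ∈ P.decompositionSubgroup ℚ,
      LinearMap.trace k ρbar.V (x σ * (ρbar.ρ σ * y σ' * ρbar.ρ σ⁻¹)) =
        lam σ' - lam (σ * σ') + lam σ)
    {φ τ : GQ} (hφ : P.IsFrobeniusAt φ q) (hτ : τ ∈ P.inertiaSubgroupIn ℚ)
    (hcomm : ρbar.ρ φ * x τ = x τ * ρbar.ρ φ) :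
    LinearMap.trace k ρbar.V (x τ * y φ) = 0 := by
  have hpq := ne_of_dvd_sub_one hq hp hq1
  have hφD : φ ∈ P.decompositionSubgroup ℚ := mem_decomposition_of_isFrobeniusAt hφ
  have hID : ∀ σ ∈ P.inertiaSubgroupIn ℚ, σ ∈ P.decompositionSubgroup ℚ := fun σ hσ =>
    mem_decomposition_of_mem_inertiaIn P hσ
  have h1D : (1 : GQ) ∈ P.decompositionSubgroup ℚ := one_mem _
  obtain ⟨L₀, hL₀fin, hL₀⟩ := hlamL
  haveI := hL₀fin
  obtain ⟨L, hLfin, hL₀L, hL⟩ := exists_stable_level_h776 L₀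
  haveI := hLfin
  have hrel : ∀ σ ∈ P.decompositionSubgroup ℚ, ∀ σ' ∈ P.decompositionSubgroup ℚ,
      lam (σ * σ') = lam σ + lam σ' -
        LinearMap.trace k ρbar.V (x σ * (ρbar.ρ σ * y σ' * ρbar.ρ σ⁻¹)) := by
    intro σ hσ σ' hσ'
    rw [hcob σ hσ σ' hσ']
    ring
  have hx1 : x 1 = 0 := by
    have h := hx 1 h1D 1 h1D
    rw [mul_one, map_one, inv_one, map_one, one_mul, mul_one] at h
    exact left_eq_add.mp h
  have hy1 : y 1 = 0 := hyI 1 (one_mem _)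
  have hlam1 : lam 1 = 0 := by
    have h := hrel 1 h1D 1 h1D
    rw [mul_one, hx1, zero_mul, map_zero, sub_zero] at h
    exact left_eq_add.mp h
  have hlamL : ∀ σ ∈ P.inertiaSubgroupIn ℚ, (∀ z ∈ L, σ z = z) → lam σ = 0 := by
    intro σ hσ hfix
    have h := hL₀ 1 h1D σ (hID σ hσ) (fun z hz => hfix z (hL₀L hz))
    rw [one_mul, hlam1] at h
    exact h
  -- `lam` is additive on inertia
  have hadd : ∀ σ ∈ P.inertiaSubgroupIn ℚ, ∀ σ' ∈ P.inertiaSubgroupIn ℚ,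
      lam (σ * σ') = lam σ + lam σ' := by
    intro σ hσ σ' hσ'
    rw [hrel σ (hID σ hσ) σ' (hID σ' hσ'), hyI σ' hσ', mul_zero, zero_mul, mul_zero,
      map_zero, sub_zero]
  let lamHom : ↥(P.inertiaSubgroupIn ℚ) →* Multiplicative k :=
    { toFun := fun σ => Multiplicative.ofAdd (lam σ)
      map_one' := by
        show Multiplicative.ofAdd (lam 1) = 1
        rw [hlam1]; rfl
      map_mul' := fun σ σ' => by
        show Multiplicative.ofAdd (lam (σ * σ')) = _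
        rw [hadd σ σ.2 σ' σ'.2]; rfl }
  have hlamHom : ∀ σ : ↥(P.inertiaSubgroupIn ℚ), lamHom σ = Multiplicative.ofAdd (lam σ) :=
    fun _ => rfl
  have hlampow : ∀ σ ∈ P.inertiaSubgroupIn ℚ, ∀ n : ℕ, lam (σ ^ n) = n • lam σ := by
    intro σ hσ n
    have h := map_pow lamHom ⟨σ, hσ⟩ n
    have h1 : lamHom (⟨σ, hσ⟩ ^ n) = Multiplicative.ofAdd (lam (σ ^ n)) := rfl
    rw [h1, hlamHom] at h
    exact Multiplicative.ofAdd.injective h
  have hcast : ∀ (n : ℕ) (z : k), n • z = (n : k) * z := fun n z => nsmul_eq_mul n z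
  have hqk : ((q : ℕ) : k) = 1 := by
    have h1 : ((q - 1 : ℕ) : k) = 0 := (CharP.cast_eq_zero_iff k p _).mpr hq1
    have h2 : q = (q - 1) + 1 := (Nat.sub_add_cancel hq.one_le).symm
    rw [h2, Nat.cast_add, h1, zero_add, Nat.cast_one]
  -- wild elements are killed by `lam`
  have hwildlam : ∀ ω ∈ P.inertiaSubgroupIn ℚ, IsWildOn P ω (L : Set Qb) → lam ω = 0 := by
    intro ω hω hwild
    have h := map_eq_one_of_wild_subgroup (A := P) (P.inertiaSubgroupIn ℚ) lamHom L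
      (fun σ hσ => by
        rw [hlamHom, hlamL σ σ.2 hσ]
        rfl)
      hω hω (hL ω) hwild p hp (valuation_prime_eq_one hq hP hp hpq) 1
      (by
        rw [pow_one, ← map_pow]
        have h1 : lamHom (⟨ω, hω⟩ ^ p) = Multiplicative.ofAdd (lam (ω ^ p)) := rfl
        rw [h1, hlampow ω hω, hcast, CharP.cast_eq_zero, zero_mul]
        rfl)
    rw [hlamHom] at h
    exact Multiplicative.ofAdd.injective h
  -- first computation of `lam (φ τ φ⁻¹)`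
  obtain ⟨ω, hω, hwild, hconj⟩ := isWildOn_conj_frobenius hφ hτ (L : Set Qb)
  have hA : lam (φ * τ * φ⁻¹) = lam τ := by
    rw [hconj, hadd ω hω _ (pow_mem hτ q), hwildlam ω hω hwild, zero_add, hlampow τ hτ, hcast,
      hqk, one_mul]
  -- second computation
  have hρτ : ρbar.ρ τ = 1 := hur τ hτ
  have hφτD : φ * τ ∈ P.decompositionSubgroup ℚ := mul_mem hφD (hID τ hτ)
  have hφinvD : φ⁻¹ ∈ P.decompositionSubgroup ℚ := inv_mem hφD
  have hYdef : ρbar.ρ φ * y φ⁻¹ * ρbar.ρ φ⁻¹ = -y φ := by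
    have h := hy φ hφD φ⁻¹ hφinvD
    rw [mul_inv_cancel, hy1] at h
    exact eq_neg_of_add_eq_zero_right h.symm
  have hρφτ : ρbar.ρ (φ * τ) = ρbar.ρ φ := by rw [map_mul, hρτ, mul_one]
  have hρφτinv : ρbar.ρ (φ * τ)⁻¹ = ρbar.ρ φ⁻¹ := by
    rw [mul_inv_rev, map_mul]
    have : ρbar.ρ τ⁻¹ = 1 := hur _ (inv_mem hτ)
    rw [this, one_mul]
  have h1 := hrel φ hφD τ (hID τ hτ)
  rw [hyI τ hτ, mul_zero, zero_mul, mul_zero, map_zero, sub_zero] at h1
  have h2 := hrel (φ * τ) hφτD φ⁻¹ hφinvD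
  rw [hρφτ, hρφτinv, hYdef, hx φ hφD τ (hID τ hτ)] at h2
  have h3 := hrel φ hφD φ⁻¹ hφinvD
  rw [mul_inv_cancel, hlam1, hYdef] at h3
  have hconjx : ρbar.ρ φ * x τ * ρbar.ρ φ⁻¹ = x τ := by
    rw [hcomm, mul_assoc, rho_mul_inv, mul_one]
  rw [hconjx, h1, add_mul, map_add] at h2
  rw [hA] at h2
  simp only [mul_neg, map_neg] at h2 h3
  linear_combination h3 - h2

end Heisenberg

section LocTriv

variable {k : Type} [Field k] {ρbar : ResidualGaloisRep k}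

theorem natCast_eq_one_of_mem_decomposition [CharP k p] (hq : q.Prime)
    (hP : P.LiesOverPrime q) (hp : p.Prime) (hq1 : p ∣ q - 1) {σ : GQ}
    (hσ : σ ∈ P.decompositionSubgroup ℚ) {a : ℕ} (ha : IsCycExp p σ a) : ((a : ℕ) : k) = 1 := by
  haveI : NeZero p := ⟨hp.ne_zero⟩
  have hζ := Fermat.Agent.S55.H414.zetaBar_spec p
  have h1 := isCycExp_one_of_mem_decomposition hq hP hp hq1 hσ
  have h2 : Fermat.Agent.S55.H414.zetaBar p ^ a = Fermat.Agent.S55.H414.zetaBar p ^ 1 := by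
    rw [← ha _ hζ.pow_eq_one, ← h1 _ hζ.pow_eq_one]
  have h3 := natCast_eq_of_pow_eq (k := k) hp hζ h2
  rwa [Nat.cast_one] at h3

/-- The twisted cocycle relation on `D_P` is the untwisted one. -/
theorem tw_map_mul_of_mem_decomposition (hq : q.Prime)
    (hP : P.LiesOverPrime q) (hp : p.Prime) (hq1 : p ∣ q - 1)
    {y : GQ → Module.End k ρbar.V}
    (hy : IsTwCocycleOn ρbar p (P.decompositionSubgroup ℚ) y) :
    ∀ σ ∈ P.decompositionSubgroup ℚ, ∀ τ ∈ P.decompositionSubgroup ℚ,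
      y (σ * τ) = y σ + ρbar.ρ σ * y τ * ρbar.ρ σ⁻¹ := by
  intro σ hσ τ hτ
  have h := hy.map_mul σ hσ τ hτ 1 (isCycExp_one_of_mem_decomposition hq hP hp hq1 hσ)
  rw [twAd_one] at h
  exact h

/-- **LOCTRIV for local cocycles.**  An unramified twisted cocycle on `D_P` whose value at a
Frobenius element `φ` is `φ m φ⁻¹ − m` is the coboundary of `m` on `D_P`. -/
theorem locTriv_local [CharP k p] (hq : q.Prime) (hP : P.LiesOverPrime q)
    (hp : p.Prime) (hq1 : p ∣ q - 1)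
    (hur : ∀ σ ∈ P.inertiaSubgroupIn ℚ, ρbar.ρ σ = 1)
    {y : GQ → Module.End k ρbar.V}
    (hy : IsTwCocycleOn ρbar p (P.decompositionSubgroup ℚ) y)
    (hyI : ∀ τ ∈ P.inertiaSubgroupIn ℚ, y τ = 0)
    {φ : GQ} (hφ : P.IsFrobeniusAt φ q) {m : Module.End k ρbar.V}
    (hm : LinearMap.trace k ρbar.V m = 0)
    (hyφ : y φ = ρbar.ρ φ * m * ρbar.ρ φ⁻¹ - m) :
    IsTwCoboundaryOn ρbar p (P.decompositionSubgroup ℚ) y m := by
  have hφD : φ ∈ P.decompositionSubgroup ℚ := mem_decomposition_of_isFrobeniusAt hφ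
  have hID : ∀ σ ∈ P.inertiaSubgroupIn ℚ, σ ∈ P.decompositionSubgroup ℚ := fun σ hσ =>
    mem_decomposition_of_mem_inertiaIn P hσ
  have hy' := tw_map_mul_of_mem_decomposition hq hP hp hq1 hy
  have hy1 : y 1 = 0 := hyI 1 (one_mem _)
  have hpow : ∀ n : ℕ, y (φ ^ n) = ρbar.ρ (φ ^ n) * m * ρbar.ρ (φ ^ n)⁻¹ - m := by
    intro n
    induction n with
    | zero => rw [pow_zero, hy1, inv_one, map_one, one_mul, mul_one, sub_self]
    | succ n ih =>
      rw [pow_succ, hy' _ (pow_mem hφD n) φ hφD, ih, hyφ, mul_inv_rev, map_mul, map_mul]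
      simp only [mul_sub, sub_mul, mul_assoc]
      abel
  refine ⟨hm, fun σ hσ a ha => ?_⟩
  obtain ⟨Ly, hLy, hyL⟩ := hy.level
  obtain ⟨Lρ, hLρ, hρL⟩ := ρbar.factorsThroughFiniteLevel
  haveI := hLy
  haveI := hLρ
  haveI : FiniteDimensional ℚ ↥(Ly ⊔ Lρ) := IntermediateField.finiteDimensional_sup Ly Lρ
  obtain ⟨n, ι, g, hι, hgD, hg, rfl⟩ := exists_decomp hq hP (Ly ⊔ Lρ) hφ hσ
  have hφnD : φ ^ n ∈ P.decompositionSubgroup ℚ := pow_mem hφD n
  have hρ1 : ρbar.ρ (φ ^ n * ι * g) = ρbar.ρ (φ ^ n) := by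
    rw [map_mul, map_mul, hur ι hι, hρL g (fun x hx => hg x (le_sup_right (a := Ly) hx)),
      mul_one, mul_one]
  have hρ2 : ρbar.ρ (φ ^ n * ι * g)⁻¹ = ρbar.ρ (φ ^ n)⁻¹ := rho_inv_eq_of_eq hρ1
  have hy2 : y (φ ^ n * ι * g) = y (φ ^ n) := by
    rw [hyL (φ ^ n * ι) (mul_mem hφnD (hID ι hι)) g hgD
      (fun x hx => hg x (le_sup_left (b := Lρ) hx)), hy' _ hφnD ι (hID ι hι), hyI ι hι,
      mul_zero, zero_mul, add_zero]
  unfold twAd
  rw [natCast_eq_one_of_mem_decomposition hq hP hp hq1 hσ ha, one_smul, hρ1, hρ2, hy2, hpow n]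

end LocTriv

end Fermat.Agent.S56.H776
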