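import Mathlib
import Fermat.Agent.S56.GW.RQSpec
import Fermat.Agent.S56.H776.NonDegLocal
import Fermat.Agent.S56.RQ.LineH454

/-!
# S56 / REC-Q, leaf NONDEG (helper776; subtask 645): `GW.NonDegStatement`

At a Taylor–Wiles prime `q` (`q ≡ 1 mod p`, `ρ̄` unramified at `P | q`, `ρ̄ φ` with distinct
eigenvalues), an unramified local twisted cocycle `y` on `D_P` whose cup product with EVERY local
ad⁰-cocycle `x` on `D_P` is a local 2-coboundary is a twisted coboundary on `D_P`.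

Proof.  `h` := the trace-zero generator of the commutant of `ρ̄ φ` (`RQ.H454.line_core`),
`χ` := the Kummer character of `q^{1/p}` (`exists_kummer_char`; ramified by
`exists_mem_inertia_apply_ne`), `x := χ · h` is a local ad⁰-cocycle on `D_P`.  The Heisenberg
argument (`trace_mul_eq_zero_local`) gives `χ(τ) · tr (h · y φ) = 0` with `χ(τ) ≠ 0`, hence
`y φ = φ m φ⁻¹ − m` (`line_core`), hence `y = dm` on `D_P` (`locTriv_local`).
-/

set_option autoImplicit false
set_option linter.style.haveILetI false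

open Polynomial

namespace Fermat.Agent.S56.H776

open Fermat.Agent.A2.H708 Fermat.Agent.S56 Fermat.Agent.S56.H716 Fermat.Agent.S56.GW
open Fermat.Agent.S56.H554

/-- **(NONDEG)**: right non-degeneracy of the tame local pairing at a Taylor–Wiles prime. -/
theorem nonDeg : NonDegStatement := by
  intro k _ _ ρbar p q P h y hy hyI hcup
  haveI := h.hchar
  have hp := h.hp
  have hq := h.hq
  have hP := h.hP
  have hq1 := h.hq1
  have hur : ∀ σ ∈ P.inertiaSubgroupIn ℚ, ρbar.ρ σ = 1 := fun σ hσ => h.hur P hP σ hσ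
  have h2 : (2 : k) ≠ 0 := by
    intro h0
    have h1 : ((2 : ℕ) : k) = 0 := by exact_mod_cast h0
    have h3 : p ∣ 2 := (CharP.cast_eq_zero_iff k p 2).mp h1
    exact h.hp2 ((Nat.prime_dvd_prime_iff_eq hp Nat.prime_two).mp h3)
  obtain ⟨φ, hφ, -⟩ := Fermat.Agent.Lib.Cheb.H476.exists_frobenius_at q hq P hP
  have hφD : φ ∈ P.decompositionSubgroup ℚ := mem_decomposition_of_isFrobeniusAt hφ
  obtain ⟨α, β, hαβ, hchar⟩ := h.hfrob φ hφ
  obtain ⟨hh, htr, -, hcomm, -, hsolve⟩ := Fermat.Agent.S56.RQ.H454.line_core ρbar.finrank_eq h2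
    (ρbar.ρ φ) (ρbar.ρ φ⁻¹) (rho_mul_inv φ) α β hαβ hchar
  obtain ⟨χ, L, hLfin, hadd, hlev, τ₀, hτ₀, hχτ₀⟩ := exists_kummer_char (k := k) hq hP hp hq1
  -- the local cocycle `x = χ · h`
  have hx : IsAdCocycleOn ρbar (P.decompositionSubgroup ℚ) (fun σ => χ σ • hh) := by
    refine ⟨fun σ _ => ?_, fun σ hσ τ _ => ?_, ⟨L, hLfin, fun σ _ τ _ hτ => ?_⟩⟩
    · rw [map_smul, htr, smul_zero]
    · show χ (σ * τ) • hh = χ σ • hh + ρbar.ρ σ * (χ τ • hh) * ρbar.ρ σ⁻¹
      rw [hadd σ hσ τ, add_smul, mul_smul_comm, smul_mul_assoc,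
        conj_eq_of_commute hq hP hur hφ hcomm hσ]
    · show χ (σ * τ) • hh = χ σ • hh
      rw [hlev σ τ hτ]
  obtain ⟨lam, hlamL, hlam⟩ := hcup _ hx
  have hy' := tw_map_mul_of_mem_decomposition hq hP hp hq1 hy
  have hcob : ∀ σ ∈ P.decompositionSubgroup ℚ, ∀ σ' ∈ P.decompositionSubgroup ℚ,
      LinearMap.trace k ρbar.V ((fun σ => χ σ • hh) σ * (ρbar.ρ σ * y σ' * ρbar.ρ σ⁻¹)) =
        lam σ' - lam (σ * σ') + lam σ := by
    intro σ hσ σ' hσ'
    have hσ1 := isCycExp_one_of_mem_decomposition hq hP hp hq1 hσ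
    have h1 := hlam σ hσ σ' hσ' 1 hσ1
    have hdet : LinearMap.det (ρbar.ρ σ) = 1 := by
      rw [h.hdet σ 1 hσ1, Nat.cast_one]
    rw [Nat.cast_one, one_mul] at h1
    rw [← h1]
    unfold cup
    rw [hdet, one_smul]
  have key := trace_mul_eq_zero_local hq hP hp hq1 hur hx.map_mul hy' hyI hlamL hcob hφ hτ₀
    (by
      show ρbar.ρ φ * (χ τ₀ • hh) = χ τ₀ • hh * ρbar.ρ φ
      rw [mul_smul_comm, smul_mul_assoc, hcomm])
  have key' : LinearMap.trace k ρbar.V (hh * y φ) = 0 := by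
    have h1 : LinearMap.trace k ρbar.V (χ τ₀ • hh * y φ) = 0 := key
    rw [smul_mul_assoc, map_smul, smul_eq_mul] at h1
    exact (mul_eq_zero.mp h1).resolve_left hχτ₀
  obtain ⟨m, hm, hym⟩ := hsolve (y φ) (hy.trace_eq_zero φ hφD) key'
  exact ⟨m, locTriv_local hq hP hp hq1 hur hy hyI hφ hm hym⟩

end Fermat.Agent.S56.H776
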